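import Fermat.Agent.WignerAlmostSure.Sharp
import Fermat.Agent.WignerWeakLaw.Spectral
import Mathlib.Probability.ProductMeasure
import Mathlib.Analysis.PSeries

/-!
# Borel–Cantelli on the infinite matrix
-/

set_option autoImplicit false

noncomputable section

namespace FA.WignerAlmostSure

open Finset MeasureTheory Filter Topology
open FA.WignerSemicircle (limitMoment tendsto_trace_moment)
open FA.WignerWeakLaw (scaledTrace integrable_scaledTrace integrable_sub_sq continuous_scaledTrace)

/-- The `n × n` corner. -/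
def corner (n : ℕ) (X : Sym2 ℕ → ℝ) : Sym2 (Fin n) → ℝ := fun e => X (Sym2.map Fin.val e)

theorem measurable_corner (n : ℕ) : Measurable (corner n) :=
  measurable_pi_lambda _ fun _ => measurable_pi_apply _

theorem map_corner (μ : Measure ℝ) [IsProbabilityMeasure μ] (n : ℕ) :
    (Measure.infinitePi fun _ : Sym2 ℕ => μ).map (corner n) =
      Measure.pi fun _ : Sym2 (Fin n) => μ := by
  classical
  have hinj : Function.Injective (Sym2.map (Fin.val : Fin n → ℕ)) :=
    Sym2.map.injective Fin.val_injective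
  refine (Measure.pi_eq fun t ht => ?_).symm
  set u : Sym2 ℕ → Set ℝ := Function.extend (Sym2.map Fin.val) t fun _ => Set.univ with hu
  have hval : ∀ e, u (Sym2.map Fin.val e) = t e := fun e => hinj.extend_apply t _ e
  have hpre : corner n ⁻¹' Set.univ.pi t =
      Set.pi ((univ : Finset (Sym2 (Fin n))).image (Sym2.map Fin.val) : Set (Sym2 ℕ)) u := by
    ext X
    simp only [Set.mem_preimage, Set.mem_pi, Set.mem_univ, forall_true_left, coe_image, coe_univ,
      Set.image_univ, Set.mem_range, forall_exists_index, forall_apply_eq_imp_iff, hval, corner]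
  rw [Measure.map_apply (measurable_corner n) (MeasurableSet.univ_pi ht), hpre,
    Measure.infinitePi_pi _ fun i hi => ?_, prod_image hinj.injOn]
  · simp only [hval]
  · obtain ⟨e, -, rfl⟩ := mem_image.1 hi
    rw [hval]
    exact ht e

variable (μ : Measure ℝ) [IsProbabilityMeasure μ] (hμ : ∀ j : ℕ, Integrable (fun x => x ^ j) μ)
  (h1 : ∫ x, x ∂μ = 0) (h2 : ∫ x, x ^ 2 ∂μ = 1)
include hμ h1 h2

theorem ae_tendsto_trace (k : ℕ) :
    ∀ᵐ X ∂(Measure.infinitePi fun _ : Sym2 ℕ => μ),
      Tendsto (fun n : ℕ => scaledTrace k (corner n X)) atTop (𝓝 (limitMoment k)) := by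
  set P := Measure.infinitePi fun _ : Sym2 ℕ => μ
  set M : ℕ → ℝ := fun n => ∫ Y, scaledTrace k Y ∂(Measure.pi fun _ : Sym2 (Fin n) => μ) with hM
  have hmean : Tendsto M atTop (𝓝 (limitMoment k)) := by
    refine (tendsto_trace_moment μ hμ h1 h2 k).congr fun n => ?_
    rw [hM, ← integral_const_mul]
    rfl
  have hmeasn : ∀ n, Measurable fun Y : Sym2 (Fin n) → ℝ =>
      ENNReal.ofReal ((scaledTrace k Y - M n) ^ 2) := fun n =>
    (((continuous_scaledTrace k).measurable.sub_const _).pow_const 2).ennreal_ofReal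
  have hmeas : ∀ n, Measurable fun X : Sym2 ℕ → ℝ =>
      ENNReal.ofReal ((scaledTrace k (corner n X) - M n) ^ 2) := fun n =>
    (hmeasn n).comp (measurable_corner n)
  have hterm : ∀ n, ∫⁻ X, ENNReal.ofReal ((scaledTrace k (corner n X) - M n) ^ 2) ∂P ≤
      ENNReal.ofReal (sharpBound μ k / (n : ℝ) ^ 2) := fun n => by
    rw [← lintegral_map (hmeasn n) (measurable_corner n), map_corner μ n,
      ← ofReal_integral_eq_lintegral_ofReal (integrable_sub_sq μ hμ n k _)
        (.of_forall fun X => sq_nonneg _)]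
    exact ENNReal.ofReal_le_ofReal (variance_sharp μ hμ h1 n k)
  have hsum : ∫⁻ X, ∑' n, ENNReal.ofReal ((scaledTrace k (corner n X) - M n) ^ 2) ∂P ≠ ⊤ := by
    rw [lintegral_tsum fun n => (hmeas n).aemeasurable]
    refine ((ENNReal.tsum_le_tsum hterm).trans_lt ?_).ne
    have hC : 0 ≤ sharpBound μ k := by
      have := FA.WignerSemicircle.one_le_momentBound μ (2 * k)
      unfold sharpBound; positivity
    have hs : Summable fun n : ℕ => sharpBound μ k / (n : ℝ) ^ 2 := by
      simpa [div_eq_mul_inv] using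
        ((Real.summable_nat_pow_inv (p := 2)).2 one_lt_two).mul_left (sharpBound μ k)
    rw [← ENNReal.ofReal_tsum_of_nonneg (fun n => by positivity) hs]
    exact ENNReal.ofReal_lt_top
  filter_upwards [ae_lt_top (Measurable.tsum fun n => hmeas n) hsum] with X hX
  have h0 := (ENNReal.tendsto_toReal ENNReal.zero_ne_top).comp
    (ENNReal.tendsto_atTop_zero_of_tsum_ne_top hX.ne)
  simp only [Function.comp_def, ENNReal.toReal_ofReal (sq_nonneg _), ENNReal.toReal_zero] at h0
  have h := (Real.continuous_sqrt.tendsto 0).comp h0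
  simp only [Function.comp_def, Real.sqrt_zero, Real.sqrt_sq_eq_abs] at h
  have h' := ((tendsto_zero_iff_abs_tendsto_zero _).2 h).add hmean
  rw [zero_add] at h'
  exact h'.congr fun n => sub_add_cancel _ _

theorem ae_tendsto_moments :
    ∀ᵐ X ∂(Measure.infinitePi fun _ : Sym2 ℕ => μ), ∀ k : ℕ,
      Tendsto (fun n : ℕ => scaledTrace k (corner n X)) atTop (𝓝 (limitMoment k)) :=
  ae_all_iff.2 fun k => ae_tendsto_trace μ hμ h1 h2 k

end FA.WignerAlmostSure
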