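import Fermat.Agent.WignerWeakLaw.Interval

/-!
# From moments to functions and intervals, for one sequence of matrices
-/

set_option autoImplicit false

noncomputable section

namespace FA.WignerAlmostSure

open Finset Filter Topology
open FA.WignerSemicircle (limitMoment)
open FA.WignerWeakLaw

/-- The distance of a spectral mean from its limit, by finitely many traces. -/
theorem abs_spectralMean_sub_semiMean_le {f : ℝ → ℝ} (hf : Continuous f) {P : Polynomial ℝ}
    {ε K : ℝ} {j : ℕ} (hK : 0 ≤ K) (hP : ∀ x ∈ Set.Icc (-3 : ℝ) 3, |P.eval x - f x| ≤ ε)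
    (hmaj : ∀ x, |f x - P.eval x| ≤ ε + K / 9 ^ j * x ^ (2 * j)) {n : ℕ} (hn : 0 < n)
    (X : Sym2 (Fin n) → ℝ) :
    |spectralMean f X - semiMean f| ≤
      (∑ i ∈ range (P.natDegree + 1), |P.coeff i| * |scaledTrace i X - limitMoment i|) +
        K / 9 ^ j * |scaledTrace (2 * j) X - limitMoment (2 * j)| +
          (2 * ε + K / 9 ^ j * 4 ^ j) := by
  have a1 : |spectralMean f X - spectralMean (fun x => P.eval x) X| ≤
      ε + K / 9 ^ j * scaledTrace (2 * j) X := by
    rw [← spectralMean_pow]
    simp only [spectralMean]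
    rw [← mul_sub, ← sum_sub_distrib, abs_mul, abs_inv, Nat.abs_cast]
    have hn1 : (0 : ℝ) < n := Nat.cast_pos.2 hn
    rw [inv_mul_le_iff₀ hn1]
    refine (abs_sum_le_sum_abs _ _).trans ((sum_le_sum fun i _ => hmaj _).trans ?_)
    rw [sum_add_distrib, sum_const, card_univ, Fintype.card_fin, nsmul_eq_mul, ← mul_sum]
    rw [mul_add, mul_left_comm (n : ℝ), mul_inv_cancel_left₀ hn1.ne']
  have a2 : |spectralMean (fun x => P.eval x) X - semiMean (fun x => P.eval x)| ≤
      ∑ i ∈ range (P.natDegree + 1), |P.coeff i| * |scaledTrace i X - limitMoment i| := by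
    rw [spectralMean_poly, semiMean_poly, ← sum_sub_distrib]
    refine (abs_sum_le_sum_abs _ _).trans (sum_le_sum fun i _ => ?_)
    rw [← mul_sub, abs_mul]
  have a3 : |semiMean (fun x => P.eval x) - semiMean f| ≤ ε :=
    abs_semiMean_sub_le P.continuous hf fun x hx =>
      hP x ⟨by linarith [hx.1], by linarith [hx.2]⟩
  have a4 : K / 9 ^ j * scaledTrace (2 * j) X ≤
      K / 9 ^ j * |scaledTrace (2 * j) X - limitMoment (2 * j)| + K / 9 ^ j * 4 ^ j := by
    rw [← mul_add]
    refine mul_le_mul_of_nonneg_left ?_ (by positivity)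
    linarith [le_abs_self (scaledTrace (2 * j) X - limitMoment (2 * j)), limitMoment_le j]
  have t1 := abs_sub_le (spectralMean f X) (spectralMean (fun x => P.eval x) X) (semiMean f)
  have t2 := abs_sub_le (spectralMean (fun x => P.eval x) X) (semiMean fun x => P.eval x)
    (semiMean f)
  linarith

/-- **Convergence of all moments gives weak convergence.** -/
theorem tendsto_spectralMean_of_moments (X : ∀ n : ℕ, Sym2 (Fin n) → ℝ)
    (h : ∀ k, Tendsto (fun n => scaledTrace k (X n)) atTop (𝓝 (limitMoment k)))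
    {f : ℝ → ℝ} (hf : Continuous f) {F : ℝ} (hb : ∀ x, |f x| ≤ F) :
    Tendsto (fun n => spectralMean f (X n)) atTop (𝓝 (semiMean f)) := by
  refine Metric.tendsto_atTop'.2 fun η hη => ?_
  obtain ⟨P, hP⟩ := exists_polynomial_near_of_continuousOn (-3) 3 f hf.continuousOn (η / 5)
    (by positivity)
  obtain ⟨K, hK, hmaj⟩ := exists_majorant hb P (by positivity : (0 : ℝ) ≤ η / 5)
    fun x hx => (hP x hx).le
  have h49 : Tendsto (fun j : ℕ => K * (4 / 9 : ℝ) ^ j) atTop (𝓝 0) := by
    simpa using (tendsto_pow_atTop_nhds_zero_of_lt_one (by norm_num : (0 : ℝ) ≤ 4 / 9)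
      (by norm_num)).const_mul K
  obtain ⟨j, hj, hjd⟩ := ((h49.eventually_lt_const (show (0 : ℝ) < η / 5 by positivity)).and
    (eventually_ge_atTop P.natDegree)).exists
  have hd : ∀ i, Tendsto (fun n => |scaledTrace i (X n) - limitMoment i|) atTop (𝓝 0) := fun i =>
    by
    simpa using ((h i).sub_const (limitMoment i)).abs
  have hlim := (tendsto_finsetSum (range (P.natDegree + 1)) fun i _ =>
    (hd i).const_mul |P.coeff i|).add ((hd (2 * j)).const_mul (K / 9 ^ j))
  simp only [mul_zero, sum_const_zero, add_zero] at hlim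
  obtain ⟨N, hN⟩ := (hlim.eventually_lt_const (show (0 : ℝ) < η / 5 by positivity)).and
    (eventually_gt_atTop 0) |>.exists_forall_of_atTop
  refine ⟨N, fun n hn => ?_⟩
  obtain ⟨hsum, hn0⟩ := hN n hn.le
  rw [Real.dist_eq]
  refine (abs_spectralMean_sub_semiMean_le hf hK (fun x hx => (hP x hx).le) (hmaj j hjd) hn0
    (X n)).trans_lt ?_
  have hK4 : K / 9 ^ j * 4 ^ j < η / 5 := by
    rw [div_mul_eq_mul_div, mul_div_assoc, ← div_pow]; exact hj
  linarith

/-- The proportion in an interval follows the moments. -/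
theorem tendsto_box_of_moments (X : ∀ n : ℕ, Sym2 (Fin n) → ℝ)
    (h : ∀ k, Tendsto (fun n => scaledTrace k (X n)) atTop (𝓝 (limitMoment k))) (a b : ℝ) :
    Tendsto (fun n => spectralMean (boxInd a b) (X n)) atTop (𝓝 (semiMean (boxInd a b))) := by
  have hout := tendsto_semiMean_cut a b _ (continuous_outerCut a b) (abs_outerCut_le a b)
    fun x _ _ => tendsto_outerCut a b x
  have hin := tendsto_semiMean_cut a b _ (continuous_innerCut a b) (abs_innerCut_le a b)
    fun x ha hb => tendsto_innerCut a b x ⟨ha, hb⟩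
  refine tendsto_order.2 ⟨fun c hc => ?_, fun c hc => ?_⟩
  · obtain ⟨k, hk⟩ := (hin.eventually_const_lt hc).exists
    filter_upwards [(tendsto_spectralMean_of_moments X h (continuous_innerCut a b k)
      (abs_innerCut_le a b k)).eventually_const_lt hk] with n hn
    exact hn.trans_le (spectralMean_mono (innerCut_le a b k) _)
  · obtain ⟨k, hk⟩ := (hout.eventually_lt_const hc).exists
    filter_upwards [(tendsto_spectralMean_of_moments X h (continuous_outerCut a b k)
      (abs_outerCut_le a b k)).eventually_lt_const hk] with n hn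
    exact (spectralMean_mono (le_outerCut a b k) _).trans_lt hn

end FA.WignerAlmostSure
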