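import Fermat.Agent.WignerWeakLaw.Variance
import Mathlib.Algebra.BigOperators.Group.Finset.Interval
import Mathlib.Data.ZMod.Basic

/-!
# The sharp bound for the variance

Two walks with a common edge and `k + 1` vertices would run around one tree, where every closed
walk crosses every edge an even number of times.
-/

set_option autoImplicit false

noncomputable section

namespace FA.WignerAlmostSure

open Finset MeasureTheory
open FA.WignerSemicircle (walkEdge edgeMult seenVerts mem_seenVerts AllTwice IsNewStep edgeMult_pos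
  exists_of_edgeMult_pos endpoint_seen extendWalk closedWalks walkMean momentBound
  one_le_momentBound abs_walkMean_le integral_trace)
open FA.WignerWeakLaw (spliceWalk edgeMult_splice TwiceTogether seen_of_mult mult_of_seen
  card_union_le card_smallPairs pairMean pairMean_eq pairMean_single abs_pairMean_le scaledTrace
  scaledTrace_eq integral_sub_sq edgeMult_eq_sum)

variable {α : Type*} [DecidableEq α] {k : ℕ}

/-- A potential jumping exactly across the created edge `e`. -/
theorem exists_potential (r : ℕ → α) (e : Sym2 α) (t : ℕ) :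
    ∃ χ : α → ZMod 2, ∀ u < t, IsNewStep r u →
      χ (r u) + χ (r (u + 1)) = if walkEdge r u = e then 1 else 0 := by
  induction t with
  | zero => exact ⟨fun _ => 0, fun u hu => absurd hu (Nat.not_lt_zero u)⟩
  | succ t ih =>
    obtain ⟨χ, hχ⟩ := ih
    by_cases hnew : IsNewStep r t
    · refine ⟨Function.update χ (r (t + 1)) (χ (r t) + if walkEdge r t = e then 1 else 0),
        fun u hu hu' => ?_⟩
      have hne : ∀ v ∈ seenVerts r t, v ≠ r (t + 1) := fun v hv h => hnew (h ▸ hv)
      rcases eq_or_lt_of_le (Nat.le_of_lt_succ hu) with rfl | hu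
      · rw [Function.update_self,
          Function.update_of_ne (hne _ (mem_seenVerts.2 ⟨u, le_rfl, rfl⟩)), ← add_assoc,
          CharTwo.add_self_eq_zero, zero_add]
      · rw [Function.update_of_ne (hne _ (mem_seenVerts.2 ⟨u, hu.le, rfl⟩)),
          Function.update_of_ne (hne _ (mem_seenVerts.2 ⟨u + 1, hu, rfl⟩))]
        exact hχ u hu hu'
    · exact ⟨χ, fun u hu hu' => by
        rcases eq_or_lt_of_le (Nat.le_of_lt_succ hu) with rfl | hu
        · exact absurd hu' hnew
        · exact hχ u hu hu'⟩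

/-- A closed walk crosses the edge of a potential an even number of times. -/
theorem edgeMult_even {p : ℕ → α} {e : Sym2 α} {χ : α → ZMod 2} (hp : p 0 = p k)
    (h : ∀ u < k, χ (p u) + χ (p (u + 1)) = if walkEdge p u = e then 1 else 0) :
    Even (edgeMult p k e) := by
  rw [← ZMod.natCast_eq_zero_iff_even, edgeMult_eq_sum, Nat.cast_sum]
  simp only [Nat.cast_ite, Nat.cast_one, Nat.cast_zero]
  rw [← sum_congr rfl fun u hu => h u (mem_range.1 hu),
    sum_congr rfl fun u _ => show χ (p u) + χ (p (u + 1)) = χ (p (u + 1)) - χ (p u) by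
      rw [CharTwo.sub_eq_add, add_comm],
    sum_range_sub (fun u => χ (p u)), ← hp, sub_self]

/-- **The sharp count of vertices.** -/
theorem card_union_sharp {p q : ℕ → α} (hp : p 0 = p k) (hq : q 0 = q k)
    (h2 : TwiceTogether p q k) {e : Sym2 α} (hep : 0 < edgeMult p k e)
    (heq : 0 < edgeMult q k e) : (seenVerts p k ∪ seenVerts q k).card ≤ k := by
  obtain ⟨a, ha, hae⟩ := exists_of_edgeMult_pos hep
  obtain ⟨c, hc, hcv⟩ := mem_seenVerts.1
    (seen_of_mult heq (v := p a) (by rw [← hae]; exact Sym2.mem_mk_left _ _))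
  have hcm : q (c % k) = p a := by
    rcases eq_or_lt_of_le hc with rfl | hc
    · rw [Nat.mod_self, hq, hcv]
    · rw [Nat.mod_eq_of_lt hc, hcv]
  set r := spliceWalk p q k a c
  have hm := edgeMult_splice ha hq hcm
  have htw : AllTwice r (2 * k) := fun t ht => by
    have := edgeMult_pos (p := r) ht
    rw [hm] at this ⊢
    exact h2 _ this
  have hle := htw.card_seenVerts_le
  have hsub : seenVerts p k ∪ seenVerts q k ⊆ seenVerts r (2 * k) := fun v hv => by
    rcases mem_union.1 hv with hv | hv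
    all_goals
      obtain ⟨e', he', hve⟩ := mult_of_seen (by omega) hv
      exact seen_of_mult (by rw [hm]; omega) hve
  refine (card_le_card hsub).trans (Nat.le_of_not_lt fun hlt => ?_)
  obtain ⟨htwo, hcreate⟩ := htw.tree (show (seenVerts r (2 * k)).card = k + 1 by omega)
  obtain ⟨χ, hχ⟩ := exists_potential r e (2 * k)
  have hedge : ∀ (w : ℕ → α), (∀ u < k, 0 < edgeMult r (2 * k) (walkEdge w u)) →
      ∀ u < k, χ (w u) + χ (w (u + 1)) = if walkEdge w u = e then 1 else 0 := fun w hw u hu => by
    obtain ⟨t, ht, hte⟩ := exists_of_edgeMult_pos (hw u hu)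
    obtain ⟨v, hv, hvn, hve⟩ := hcreate t ht
    have h := hχ v hv hvn
    rw [← hte, ← hve]
    rcases Sym2.eq_iff.1 (hve.trans hte) with ⟨e1, e2⟩ | ⟨e1, e2⟩
    · rw [← e1, ← e2]; exact h
    · rw [← e1, ← e2, add_comm]; exact h
  have hpe := edgeMult_even hp (hedge p fun u hu => by
    rw [hm]; have := edgeMult_pos (p := p) hu; omega)
  have hqe := edgeMult_even hq (hedge q fun u hu => by
    rw [hm]; have := edgeMult_pos (p := q) hu; omega)
  obtain ⟨t, ht, hte⟩ := exists_of_edgeMult_pos (p := r) (t := 2 * k) (e := e) (by rw [hm]; omega)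
  have h4 := htwo t ht
  rw [hte, hm] at h4
  obtain ⟨i, hi⟩ := hpe
  obtain ⟨j, hj⟩ := hqe
  omega

variable (μ : Measure ℝ)

/-- The constant of the sharp bound. -/
def sharpBound (k : ℕ) : ℝ :=
  (momentBound μ (2 * k) ^ (2 * k) + (momentBound μ k ^ k) ^ 2) *
    ((k : ℝ) ^ (k + 1) * (k : ℝ) ^ (k + 1))

theorem covariance_sharp [IsProbabilityMeasure μ] (h1 : ∫ x, x ∂μ = 0) (n k : ℕ) :
    |∑ p ∈ closedWalks n k, ∑ q ∈ closedWalks n k, pairMean μ p q -
        (∑ p ∈ closedWalks n k, walkMean μ p) ^ 2| ≤ sharpBound μ k * (n : ℝ) ^ k := by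
  classical
  rw [sq, sum_mul_sum]
  simp only [← sum_sub_distrib]
  rw [← sum_product' (closedWalks n k) (closedWalks n k)
    (fun p q => pairMean μ p q - walkMean μ p * walkMean μ q)]
  rw [← sum_filter_of_ne (p := fun pq : (Fin (k + 1) → Fin n) × (Fin (k + 1) → Fin n) =>
    (∃ e, 0 < edgeMult (extendWalk pq.1) k e ∧ 0 < edgeMult (extendWalk pq.2) k e) ∧
      TwiceTogether (extendWalk pq.1) (extendWalk pq.2) k) fun pq _ hne => ?_]
  · refine (abs_sum_le_sum_abs _ _).trans ((sum_le_sum (g := fun _ =>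
      momentBound μ (2 * k) ^ (2 * k) + (momentBound μ k ^ k) ^ 2) fun pq _ => ?_).trans ?_)
    · refine (abs_sub _ _).trans (add_le_add (abs_pairMean_le μ _ _) ?_)
      rw [abs_mul, sq]
      exact mul_le_mul (abs_walkMean_le μ _) (abs_walkMean_le μ _) (abs_nonneg _)
        (pow_nonneg (zero_le_one.trans (one_le_momentBound μ k)) k)
    · rw [sum_const, nsmul_eq_mul, mul_comm, sharpBound, mul_assoc]
      refine mul_le_mul_of_nonneg_left ?_ (by
        have := one_le_momentBound μ (2 * k); positivity)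
      rw [mul_comm _ ((n : ℝ) ^ k)]
      exact_mod_cast (card_le_card fun pq hpq => mem_filter.2 ⟨mem_univ pq, by
        simp only [mem_filter, mem_product, closedWalks, mem_univ, true_and] at hpq
        obtain ⟨⟨hp, hq⟩, ⟨e, hep, heq⟩, htw⟩ := hpq
        exact card_union_sharp hp hq htw hep heq⟩).trans (card_smallPairs n k k)
  · by_contra h
    rw [not_and_or] at h
    rcases h with h | h
    · push Not at h
      refine hne (sub_eq_zero.2 (pairMean_eq μ fun e => ?_))
      rcases Nat.eq_zero_or_pos (edgeMult (extendWalk pq.1) k e) with h0 | h0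
      · exact Or.inl h0
      · exact Or.inr (Nat.le_zero.1 (h e h0))
    · obtain ⟨e1, e2⟩ := pairMean_single μ h1 h
      exact hne (by rw [e1, e2, sub_zero])

theorem variance_sharp [IsProbabilityMeasure μ] (hμ : ∀ j : ℕ, Integrable (fun x => x ^ j) μ)
    (h1 : ∫ x, x ∂μ = 0) (n k : ℕ) :
    ∫ X, (scaledTrace k X -
        ∫ Y, scaledTrace k Y ∂(Measure.pi fun _ : Sym2 (Fin n) => μ)) ^ 2
      ∂(Measure.pi fun _ : Sym2 (Fin n) => μ) ≤ sharpBound μ k / (n : ℝ) ^ 2 := by
  have hmean : ∫ Y, scaledTrace k Y ∂(Measure.pi fun _ : Sym2 (Fin n) => μ) =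
      (n : ℝ)⁻¹ * (√(n : ℝ))⁻¹ ^ k * ∑ p ∈ closedWalks n k, walkMean μ p := by
    rw [funext (scaledTrace_eq (n := n) k), integral_const_mul, integral_trace μ hμ]
  rw [hmean, integral_sub_sq μ hμ, sub_self, zero_pow two_ne_zero, add_zero]
  refine ((mul_le_mul_of_nonneg_left (le_abs_self _) (sq_nonneg _)).trans
    (mul_le_mul_of_nonneg_left (covariance_sharp μ h1 n k) (sq_nonneg _))).trans_eq ?_
  rcases n.eq_zero_or_pos with rfl | hn
  · simp
  rw [mul_pow, ← pow_mul, mul_comm k 2, pow_mul, inv_pow (√(n : ℝ)),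
    Real.sq_sqrt (Nat.cast_nonneg n), inv_pow, inv_pow]
  field_simp

end FA.WignerAlmostSure
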